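import Mathlib

/-!
# 3-torsion points of a Weierstrass curve over a field and the 3-division polynomial
-/

set_option autoImplicit false

namespace Fermat.Agent.H37

open WeierstrassCurve WeierstrassCurve.Affine

variable {F : Type*} [Field F] (W : Affine F)

/-- The value at `x` of the 3-division polynomial `3x⁴ + b₂x³ + 3b₄x² + 3b₆x + b₈`. -/
def psi3Val (x : F) : F :=
  3 * x ^ 4 + W.b₂ * x ^ 3 + 3 * W.b₄ * x ^ 2 + 3 * W.b₆ * x + W.b₈

variable {W}

/-- Key polynomial identity behind the duplication formula. -/
theorem dup_identity {x y : F} (h : W.Equation x y) :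
    (3 * x ^ 2 + 2 * W.a₂ * x + W.a₄ - W.a₁ * y) ^ 2
      + W.a₁ * (3 * x ^ 2 + 2 * W.a₂ * x + W.a₄ - W.a₁ * y) * (y - W.negY x y)
      - (W.a₂ + 3 * x) * (y - W.negY x y) ^ 2 + psi3Val W x = 0 := by
  rw [equation_iff] at h
  simp only [psi3Val, negY, b₂, b₄, b₆, b₈]
  linear_combination (-(12 * x + W.a₁ ^ 2 + 4 * W.a₂)) * h

/-- Duplication formula: `(x(2P) - x(P)) ψ₂² = -ψ₃`. -/
theorem addX_self_sub [DecidableEq F] {x y : F} (h : W.Equation x y) (hy : y ≠ W.negY x y) :
    (W.addX x x (W.slope x x y y) - x) * (y - W.negY x y) ^ 2 = - psi3Val W x := by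
  have hne : y - W.negY x y ≠ 0 := sub_ne_zero.mpr hy
  rw [slope_of_Y_ne rfl hy, addX]
  have key := dup_identity h
  field_simp
  linear_combination key

/-- At a nonsingular 2-torsion point the 3-division polynomial does not vanish. -/
theorem psi3Val_ne_zero_of_Y_eq {x y : F} (h : W.Nonsingular x y) (hy : y = W.negY x y) :
    psi3Val W x ≠ 0 := by
  intro h3
  have key := dup_identity h.1
  have h0 : y - W.negY x y = 0 := sub_eq_zero.mpr hy
  rw [h0, h3] at key
  have hnum : 3 * x ^ 2 + 2 * W.a₂ * x + W.a₄ - W.a₁ * y = 0 := by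
    have : (3 * x ^ 2 + 2 * W.a₂ * x + W.a₄ - W.a₁ * y) ^ 2 = 0 := by
      linear_combination key
    exact pow_eq_zero_iff (two_ne_zero) |>.mp this
  rw [nonsingular_iff] at h
  rcases h.2 with hX | hY
  · apply hX
    linear_combination -hnum
  · apply hY
    simp only [negY] at h0
    linear_combination h0

variable [DecidableEq F]

/-- A nonzero point is killed by 3 iff its `x`-coordinate is a root of the 3-division polynomial. -/
theorem some_add_some_add_some_eq_zero_iff {x y : F} (h : W.Nonsingular x y) :
    Point.some x y h + Point.some x y h + Point.some x y h = 0 ↔ psi3Val W x = 0 := by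
  constructor
  · intro h3
    by_cases hy : y = W.negY x y
    · exfalso
      rw [Point.add_self_of_Y_eq hy, zero_add] at h3
      exact Point.some_ne_zero h h3
    · have h2 := Point.add_self_of_Y_ne (h₁ := h) hy
      rw [h2] at h3
      have h4 := eq_neg_of_add_eq_zero_left h3
      rw [Point.neg_some] at h4
      have hx : W.addX x x (W.slope x x y y) = x := by
        injection h4
      have key := addX_self_sub h.1 hy
      rw [hx, sub_self, zero_mul] at key
      exact neg_eq_zero.mp key.symm
  · intro h3
    have hy : y ≠ W.negY x y := fun hy => psi3Val_ne_zero_of_Y_eq h hy h3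
    have hne : y - W.negY x y ≠ 0 := sub_ne_zero.mpr hy
    have key := addX_self_sub h.1 hy
    rw [h3, neg_zero] at key
    have hx : W.addX x x (W.slope x x y y) = x := by
      rcases mul_eq_zero.mp key with h1 | h1
      · exact sub_eq_zero.mp h1
      · exact absurd (pow_eq_zero_iff two_ne_zero |>.mp h1) hne
    have h2 := Point.add_self_of_Y_ne (h₁ := h) hy
    rcases (Point.X_eq_iff (h₁ := nonsingular_add h h fun hxy => hy hxy.right) (h₂ := h)).mp hx
      with h5 | h5
    · exfalso
      rw [h5] at h2
      have : Point.some x y h = 0 := by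
        have := add_eq_right.mp h2
        exact this
      exact Point.some_ne_zero h this
    · rw [h2, h5, neg_add_cancel]

end Fermat.Agent.H37
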