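import Mathlib
import Fermat.Prelude.Def_FLTPrelim_ModularRep
import Fermat.Agent.H37.ThreeTorsion

/-!
# The 3-torsion of an elliptic curve over `ℚ`: reducible mod-3 representation gives a
rational root of the 3-division polynomial.
-/

set_option autoImplicit false

namespace Fermat.Agent.H37

open WeierstrassCurve WeierstrassCurve.Affine
open scoped WeierstrassCurve.Affine

local notation "Qbar" => AlgebraicClosure ℚ

/-- `Qbar / ℚ` is Galois for the algebra instance used by the prelude. -/
theorem isGalois_Qbar : IsGalois ℚ Qbar := by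
  have h : (AlgebraicClosure.instAlgebra ℚ : Algebra ℚ Qbar) = DivisionRing.toRatAlgebra :=
    Subsingleton.elim _ _
  rw [← h]
  infer_instance

/-- An element of `Qbar` fixed by the whole Galois group is rational. -/
theorem exists_rat_of_fixed (x : Qbar) (hx : ∀ σ : Qbar ≃ₐ[ℚ] Qbar, σ x = x) :
    ∃ q : ℚ, algebraMap ℚ Qbar q = x := by
  have := isGalois_Qbar
  exact (InfiniteGalois.mem_range_algebraMap_iff_fixed x).mpr hx

variable (E : WeierstrassCurve ℚ)

theorem psi3Val_baseChange (q : ℚ) :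
    psi3Val (E⁄Qbar) (algebraMap ℚ Qbar q) = algebraMap ℚ Qbar (psi3Val E.toAffine q) := by
  simp only [psi3Val, Affine.baseChange, WeierstrassCurve.baseChange, map_b₂, map_b₄, map_b₆,
    map_b₈, map_add, map_mul, map_pow, map_ofNat]

theorem Δ_baseChange_ne_zero (hΔ : E.Δ ≠ 0) : (E⁄Qbar).Δ ≠ 0 := by
  simp only [Affine.baseChange, WeierstrassCurve.baseChange, map_Δ]
  exact fun h => hΔ ((map_eq_zero_iff _ (algebraMap ℚ Qbar).injective).mp h)

theorem eval_Ψ₃ {F : Type*} [Field F] (W : Affine F) (x : F) :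
    W.Ψ₃.eval x = psi3Val W x := by
  simp [Ψ₃, psi3Val]

/-- There is a root of the 3-division polynomial in an algebraically closed field of
characteristic `0`. -/
theorem exists_psi3Val_eq_zero {F : Type*} [Field F] [IsAlgClosed F] [CharZero F] (W : Affine F) :
    ∃ x : F, psi3Val W x = 0 := by
  have h3 : (3 : F) ≠ 0 := by norm_num
  have hdeg : W.Ψ₃.degree ≠ 0 := by
    rw [Polynomial.degree_eq_natDegree (W.Ψ₃_ne_zero h3), W.natDegree_Ψ₃ h3]
    norm_num
  obtain ⟨x, hx⟩ := IsAlgClosed.exists_root W.Ψ₃ hdeg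
  exact ⟨x, by rw [← eval_Ψ₃]; exact hx⟩

/-- The quadratic polynomial in `Y` cutting out the points with abscissa `x`. -/
noncomputable def yPoly {F : Type*} [Field F] (W : Affine F) (x : F) : Polynomial F :=
  Polynomial.X ^ 2 + Polynomial.C (W.a₁ * x + W.a₃) * Polynomial.X
    - Polynomial.C (x ^ 3 + W.a₂ * x ^ 2 + W.a₄ * x + W.a₆)

theorem degree_yPoly {F : Type*} [Field F] (W : Affine F) (x : F) : (yPoly W x).degree = 2 := by
  simp only [yPoly]
  compute_degree!

theorem natDegree_yPoly {F : Type*} [Field F] (W : Affine F) (x : F) :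
    (yPoly W x).natDegree = 2 :=
  Polynomial.natDegree_eq_of_degree_eq_some (degree_yPoly W x)

theorem yPoly_ne_zero {F : Type*} [Field F] (W : Affine F) (x : F) : yPoly W x ≠ 0 := by
  intro h
  have := degree_yPoly W x
  rw [h, Polynomial.degree_zero] at this
  exact absurd this (by decide)

theorem isRoot_yPoly_iff {F : Type*} [Field F] (W : Affine F) (x y : F) :
    (yPoly W x).IsRoot y ↔ W.Equation x y := by
  rw [equation_iff]
  simp only [yPoly, Polynomial.IsRoot.def, Polynomial.eval_sub, Polynomial.eval_add,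
    Polynomial.eval_pow, Polynomial.eval_X, Polynomial.eval_mul, Polynomial.eval_C]
  constructor
  · intro hy
    linear_combination hy
  · intro hy
    linear_combination hy

/-- Over an algebraically closed field every `x` is the abscissa of a point of the curve. -/
theorem exists_equation {F : Type*} [Field F] [IsAlgClosed F] (W : Affine F) (x : F) :
    ∃ y : F, W.Equation x y := by
  obtain ⟨y, hy⟩ := IsAlgClosed.exists_root (yPoly W x) (by rw [degree_yPoly]; norm_num)
  exact ⟨y, (isRoot_yPoly_iff W x y).mp hy⟩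

section Torsion

variable {F : Type*} [Field F] [DecidableEq F] (W : Affine F)

theorem mem_torsionBy_three_iff (P : W.Point) :
    P ∈ Submodule.torsionBy ℤ W.Point ((3 : ℕ) : ℤ) ↔ P + P + P = 0 := by
  rw [Submodule.mem_torsionBy_iff, Nat.cast_smul_eq_nsmul ℤ]
  have : (3 : ℕ) • P = P + P + P := by
    rw [succ_nsmul, succ_nsmul, one_nsmul]
  rw [this]

/-- Coordinates of a point. -/
def coords : W.Point → Option (F × F)
  | .zero => none
  | .some x y _ => some (x, y)

omit [DecidableEq F] in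
theorem coords_injective : Function.Injective (coords W) := by
  rintro (_ | ⟨x₁, y₁, h₁⟩) (_ | ⟨x₂, y₂, h₂⟩) h <;>
    simp only [coords, Option.some.injEq, Prod.mk.injEq, reduceCtorEq] at h
  · rfl
  · obtain ⟨rfl, rfl⟩ := h; rfl

/-- The finite set of possible coordinates of nonzero 3-torsion points. -/
noncomputable def torsionCoords : Finset (F × F) :=
  (W.Ψ₃.roots.toFinset).biUnion fun x => ((yPoly W x).roots.toFinset).image fun y => (x, y)

theorem card_torsionCoords_le [CharZero F] : (torsionCoords W).card ≤ 8 := by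
  have h3 : (3 : F) ≠ 0 := by norm_num
  calc (torsionCoords W).card
      ≤ ∑ x ∈ W.Ψ₃.roots.toFinset, (((yPoly W x).roots.toFinset).image fun y => (x, y)).card :=
        Finset.card_biUnion_le
    _ ≤ ∑ _x ∈ W.Ψ₃.roots.toFinset, 2 := by
        apply Finset.sum_le_sum
        intro x _
        calc (((yPoly W x).roots.toFinset).image fun y => (x, y)).card
            ≤ ((yPoly W x).roots.toFinset).card := Finset.card_image_le
          _ ≤ Multiset.card (yPoly W x).roots := Multiset.toFinset_card_le _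
          _ ≤ (yPoly W x).natDegree := Polynomial.card_roots' _
          _ = 2 := natDegree_yPoly W x
    _ = W.Ψ₃.roots.toFinset.card * 2 := by rw [Finset.sum_const, smul_eq_mul]
    _ ≤ 4 * 2 := by
        apply Nat.mul_le_mul_right
        calc W.Ψ₃.roots.toFinset.card ≤ Multiset.card W.Ψ₃.roots := Multiset.toFinset_card_le _
          _ ≤ W.Ψ₃.natDegree := Polynomial.card_roots' _
          _ = 4 := W.natDegree_Ψ₃ h3
    _ = 8 := by norm_num

theorem coords_mem_of_mem_torsion [CharZero F] {P : W.Point}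
    (hP : P ∈ Submodule.torsionBy ℤ W.Point ((3 : ℕ) : ℤ)) :
    coords W P ∈ insert none ((torsionCoords W).image some) := by
  have h3 : (3 : F) ≠ 0 := by norm_num
  rw [mem_torsionBy_three_iff] at hP
  rcases P with _ | ⟨x, y, h⟩
  · exact Finset.mem_insert_self _ _
  · apply Finset.mem_insert_of_mem
    rw [Finset.mem_image]
    refine ⟨(x, y), ?_, rfl⟩
    have hx := (some_add_some_add_some_eq_zero_iff h).mp hP
    rw [torsionCoords, Finset.mem_biUnion]
    refine ⟨x, ?_, ?_⟩
    · rw [Multiset.mem_toFinset, Polynomial.mem_roots (W.Ψ₃_ne_zero h3), Polynomial.IsRoot.def,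
        eval_Ψ₃]
      exact hx
    · rw [Finset.mem_image]
      refine ⟨y, ?_, rfl⟩
      rw [Multiset.mem_toFinset, Polynomial.mem_roots (yPoly_ne_zero W x), isRoot_yPoly_iff]
      exact h.1

/-- The map from the 3-torsion to the finite set of possible coordinates. -/
noncomputable def torsionToCoords [CharZero F]
    (P : Submodule.torsionBy ℤ W.Point ((3 : ℕ) : ℤ)) :
    ↥(insert none ((torsionCoords W).image some) : Finset (Option (F × F))) :=
  ⟨coords W P.1, coords_mem_of_mem_torsion W P.2⟩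

theorem torsionToCoords_injective [CharZero F] : Function.Injective (torsionToCoords W) := by
  intro P Q h
  apply Subtype.ext
  apply coords_injective W
  exact congrArg Subtype.val h

theorem finite_torsion_three [CharZero F] :
    Finite (Submodule.torsionBy ℤ W.Point ((3 : ℕ) : ℤ)) :=
  Finite.of_injective _ (torsionToCoords_injective W)

theorem card_torsion_three_le [CharZero F] :
    Nat.card (Submodule.torsionBy ℤ W.Point ((3 : ℕ) : ℤ)) ≤ 9 := by
  calc Nat.card (Submodule.torsionBy ℤ W.Point ((3 : ℕ) : ℤ))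
      ≤ Nat.card ↥(insert none ((torsionCoords W).image some) : Finset (Option (F × F))) :=
        Nat.card_le_card_of_injective _ (torsionToCoords_injective W)
    _ = (insert none ((torsionCoords W).image some) : Finset (Option (F × F))).card := by
        rw [Nat.card_eq_fintype_card, Fintype.card_coe]
    _ ≤ ((torsionCoords W).image some).card + 1 := Finset.card_insert_le _ _
    _ ≤ (torsionCoords W).card + 1 := Nat.add_le_add_right Finset.card_image_le 1
    _ ≤ 8 + 1 := Nat.add_le_add_right (card_torsionCoords_le W) 1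
    _ = 9 := by norm_num

/-- Existence of a nonzero 3-torsion point. -/
theorem exists_ne_zero_torsion_three [IsAlgClosed F] [CharZero F] (hΔ : W.Δ ≠ 0) :
    ∃ P : W.Point, P ≠ 0 ∧ P ∈ Submodule.torsionBy ℤ W.Point ((3 : ℕ) : ℤ) := by
  obtain ⟨x, hx⟩ := exists_psi3Val_eq_zero W
  obtain ⟨y, hy⟩ := exists_equation W x
  have h : W.Nonsingular x y := (equation_iff_nonsingular_of_Δ_ne_zero hΔ).mp hy
  refine ⟨Point.some x y h, Point.some_ne_zero h, ?_⟩
  rw [mem_torsionBy_three_iff]
  exact (some_add_some_add_some_eq_zero_iff h).mpr hx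

end Torsion

section Main

open Module

theorem zmod_three_cases : ∀ c : ZMod 3, c = 0 ∨ c = 1 ∨ c = 2 := by decide

/-- The Galois action on coordinates. -/
theorem smul_some (σ : Qbar ≃ₐ[ℚ] Qbar) {x y : Qbar} (h : (E⁄Qbar).Nonsingular x y) :
    ∃ h' : (E⁄Qbar).Nonsingular (σ x) (σ y),
      σ • (Point.some x y h : (E⁄Qbar).Point) = Point.some (σ x) (σ y) h' := by
  rw [Point.algEquiv_smul_def]
  exact ⟨_, Point.map_some σ.toAlgHom h⟩

/-- **3-torsion side of S51.** If the mod-3 representation of `E/ℚ` is reducible, then the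
3-division polynomial of `E` has a rational root. -/
theorem exists_rat_root_psi3_of_reducible (hΔ : E.Δ ≠ 0)
    (hred : ¬ Point.GaloisRepIsIrreducible (K := Qbar) ℚ E 3) :
    ∃ q : ℚ, psi3Val E.toAffine q = 0 := by
  have hΔK := Δ_baseChange_ne_zero E hΔ
  have hfin : Finite (Submodule.torsionBy ℤ (E⁄Qbar).Point ((3 : ℕ) : ℤ)) :=
    finite_torsion_three (E⁄Qbar)
  obtain ⟨P₀, hP₀, hP₀mem⟩ := exists_ne_zero_torsion_three (E⁄Qbar) hΔK
  have hnontriv : Nontrivial (Submodule.torsionBy ℤ (E⁄Qbar).Point ((3 : ℕ) : ℤ)) :=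
    ⟨⟨⟨P₀, hP₀mem⟩, 0, fun h => hP₀ (congrArg Subtype.val h)⟩⟩
  unfold Point.GaloisRepIsIrreducible at hred
  rw [not_and] at hred
  have hred' := hred hnontriv
  push Not at hred'
  obtain ⟨N, hstable, hbot, htop⟩ := hred'
  have : Module.Finite (ZMod 3) (Submodule.torsionBy ℤ (E⁄Qbar).Point ((3 : ℕ) : ℤ)) :=
    Module.Finite.of_finite
  have hfr : finrank (ZMod 3) (Submodule.torsionBy ℤ (E⁄Qbar).Point ((3 : ℕ) : ℤ)) ≤ 2 := by
    have hc := Module.natCard_eq_pow_finrank (K := ZMod 3)
      (V := Submodule.torsionBy ℤ (E⁄Qbar).Point ((3 : ℕ) : ℤ))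
    rw [Nat.card_zmod] at hc
    have h9 := card_torsion_three_le (E⁄Qbar)
    rw [hc] at h9
    have : 3 ^ finrank (ZMod 3) (Submodule.torsionBy ℤ (E⁄Qbar).Point ((3 : ℕ) : ℤ)) ≤ 3 ^ 2 := by
      simpa using h9
    exact (Nat.pow_le_pow_iff_right (by norm_num)).mp this
  have hN1 : finrank (ZMod 3) N ≤ 1 := by
    have := Submodule.finrank_lt htop
    omega
  obtain ⟨v, hv⟩ := finrank_le_one_iff.mp hN1
  obtain ⟨w, hwN, hw0⟩ := Submodule.exists_mem_ne_zero_of_ne_bot hbot
  have hv0 : (v : Submodule.torsionBy ℤ (E⁄Qbar).Point ((3 : ℕ) : ℤ)) ≠ 0 := by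
    intro h0
    obtain ⟨c, hc⟩ := hv ⟨w, hwN⟩
    apply hw0
    have := congrArg Subtype.val hc
    simp only [Submodule.coe_smul] at this
    rw [← this, h0, smul_zero]
  -- the underlying point
  obtain ⟨⟨⟨P, hP3⟩, hPN⟩, rfl⟩ : ∃ u, u = v := ⟨v, rfl⟩
  have hP0 : P ≠ 0 := by
    intro h
    apply hv0
    apply Subtype.ext
    exact h
  rcases P with _ | ⟨x, y, hxy⟩
  · exact absurd rfl hP0
  have hx3 : psi3Val (E⁄Qbar) x = 0 :=
    (some_add_some_add_some_eq_zero_iff hxy).mp ((mem_torsionBy_three_iff _ _).mp hP3)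
  have hfix : ∀ σ : Qbar ≃ₐ[ℚ] Qbar, σ x = x := by
    intro σ
    have hσN := hstable σ _ hPN
    obtain ⟨c, hc⟩ := hv ⟨_, hσN⟩
    have hc' : ((c • (⟨Point.some x y hxy, hP3⟩ :
        Submodule.torsionBy ℤ (E⁄Qbar).Point ((3 : ℕ) : ℤ)) :
        Submodule.torsionBy ℤ (E⁄Qbar).Point ((3 : ℕ) : ℤ)) : (E⁄Qbar).Point) =
        σ • (Point.some x y hxy : (E⁄Qbar).Point) := by
      have h1 : c • (⟨Point.some x y hxy, hP3⟩ :
          Submodule.torsionBy ℤ (E⁄Qbar).Point ((3 : ℕ) : ℤ)) =
          σ • (⟨Point.some x y hxy, hP3⟩ :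
          Submodule.torsionBy ℤ (E⁄Qbar).Point ((3 : ℕ) : ℤ)) := congrArg Subtype.val hc
      exact congrArg Subtype.val h1
    obtain ⟨h', hσ⟩ := smul_some E σ hxy
    rw [hσ] at hc'
    have h3 : (Point.some x y hxy : (E⁄Qbar).Point) + Point.some x y hxy + Point.some x y hxy = 0 :=
      (mem_torsionBy_three_iff _ _).mp hP3
    have hc3 : c = 0 ∨ c = 1 ∨ c = 2 := zmod_three_cases c
    rcases hc3 with rfl | rfl | rfl
    · exfalso
      rw [zero_smul] at hc'
      exact Point.some_ne_zero h' hc'.symm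
    · rw [one_smul] at hc'
      simp only [Point.some.injEq] at hc'
      exact hc'.1.symm
    · rw [two_smul] at hc'
      have h2 : (Point.some x y hxy : (E⁄Qbar).Point) + Point.some x y hxy
          = - Point.some x y hxy := eq_neg_of_add_eq_zero_left h3
      rw [Submodule.coe_add, h2, Point.neg_some] at hc'
      simp only [Point.some.injEq] at hc'
      exact hc'.1.symm
  obtain ⟨q, hq⟩ := exists_rat_of_fixed x hfix
  refine ⟨q, ?_⟩
  rw [← hq, psi3Val_baseChange] at hx3
  exact (map_eq_zero_iff _ (algebraMap ℚ Qbar).injective).mp hx3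

/-- **A3 for S51**, in the shape of the frozen statement: for an integral Weierstrass curve with
`Δ ≠ 0` whose mod-3 representation is not irreducible, the 3-division polynomial has a rational
root. -/
theorem exists_rat_root_psi3 (W : WeierstrassCurve ℤ) (hΔ : W.Δ ≠ 0)
    (hred : ¬ W.ModRepIsIrreducible 3) :
    ∃ q : ℚ, 3 * q ^ 4 + (W.b₂ : ℚ) * q ^ 3 + 3 * (W.b₄ : ℚ) * q ^ 2 + 3 * (W.b₆ : ℚ) * q
      + (W.b₈ : ℚ) = 0 := by
  have hΔ' : (W.map (Int.castRingHom ℚ)).Δ ≠ 0 := by
    rw [map_Δ]
    exact fun h => hΔ ((map_eq_zero_iff _ (RingHom.injective_int (Int.castRingHom ℚ))).mp h)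
  obtain ⟨q, hq⟩ := exists_rat_root_psi3_of_reducible (W.map (Int.castRingHom ℚ)) hΔ' hred
  refine ⟨q, ?_⟩
  simpa only [psi3Val, map_b₂, map_b₄, map_b₆, map_b₈, eq_intCast] using hq

end Main

end Fermat.Agent.H37


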