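import Fermat.Prelude.Def_HeckeGalois_EichlerShimura

/-!
# P-ES / S37: the formal part of `SpecializationExists`

For a Hecke-Galois module `J` (Hecke algebra `HeckeAlg`, Galois group `L ≃ₐ[K] L`, commuting
actions), a valuation subring `A` over `ℓ` and ONE Frobenius lift `σ₀` at `A`, the universal
candidate for the specialization is the quotient `J ⧸ (M + R J)` where `M` is generated by the
`τ x - x` (`τ` in the inertia group) and `R = σ₀² - T_ℓ σ₀ + ℓ`.  All clauses of
`IsSpecialization` and `SpecialFibreRelation` hold formally, except injectivity on `p`-power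
torsion, which is exactly the hypothesis `hstar` below.
-/

set_option autoImplicit false

noncomputable section

namespace Fermat.Agent.H37

open ModularCurve

section Inertia

variable {K L : Type*} [Field K] [Field L] [Algebra K L]

theorem mem_inertiaSubgroupIn_iff {A : ValuationSubring L} {τ : L ≃ₐ[K] L} :
    τ ∈ A.inertiaSubgroupIn K ↔
      ∃ h : τ ∈ A.decompositionSubgroup K,
        (⟨τ, h⟩ : A.decompositionSubgroup K) ∈ A.inertiaSubgroup K := by
  unfold ValuationSubring.inertiaSubgroupIn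
  constructor
  · rintro ⟨⟨τ', h'⟩, hmem, rfl⟩
    exact ⟨h', hmem⟩
  · rintro ⟨h, hmem⟩
    exact ⟨⟨τ, h⟩, hmem, rfl⟩

theorem mem_decomposition_of_mem_inertiaSubgroupIn {A : ValuationSubring L} {τ : L ≃ₐ[K] L}
    (h : τ ∈ A.inertiaSubgroupIn K) : τ ∈ A.decompositionSubgroup K :=
  (mem_inertiaSubgroupIn_iff.mp h).choose

/-- The inertia group is normalised by the decomposition group. -/
theorem conj_mem_inertiaSubgroupIn {A : ValuationSubring L} {σ τ : L ≃ₐ[K] L}
    (hσ : σ ∈ A.decompositionSubgroup K) (hτ : τ ∈ A.inertiaSubgroupIn K) :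
    σ * τ * σ⁻¹ ∈ A.inertiaSubgroupIn K := by
  obtain ⟨hτD, hτI⟩ := mem_inertiaSubgroupIn_iff.mp hτ
  refine mem_inertiaSubgroupIn_iff.mpr
    ⟨(A.decompositionSubgroup K).mul_mem ((A.decompositionSubgroup K).mul_mem hσ hτD)
      ((A.decompositionSubgroup K).inv_mem hσ), ?_⟩
  have hn : (A.inertiaSubgroup K).Normal := by
    unfold ValuationSubring.inertiaSubgroup
    exact MonoidHom.normal_ker _
  have := hn.conj_mem ⟨τ, hτD⟩ hτI ⟨σ, hσ⟩
  exact this

/-- Two Frobenius lifts at `A` differ by an element of the inertia group. -/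
theorem inv_mul_mem_inertiaSubgroupIn_of_isFrobeniusAt {A : ValuationSubring L}
    {σ τ : L ≃ₐ[K] L} {q : ℕ} (hσ : A.IsFrobeniusAt σ q) (hτ : A.IsFrobeniusAt τ q) :
    σ⁻¹ * τ ∈ A.inertiaSubgroupIn K := by
  have hσD := hσ.mem_decompositionSubgroup
  have hτD := hτ.mem_decompositionSubgroup
  refine mem_inertiaSubgroupIn_iff.mpr
    ⟨(A.decompositionSubgroup K).mul_mem ((A.decompositionSubgroup K).inv_mem hσD) hτD, ?_⟩
  unfold ValuationSubring.inertiaSubgroup
  rw [MonoidHom.mem_ker]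
  ext x
  have h1 : (⟨σ⁻¹ * τ, (A.decompositionSubgroup K).mul_mem
      ((A.decompositionSubgroup K).inv_mem hσD) hτD⟩ : A.decompositionSubgroup K) =
      (⟨σ, hσD⟩ : A.decompositionSubgroup K)⁻¹ * ⟨τ, hτD⟩ := rfl
  rw [h1]
  show ((⟨σ, hσD⟩ : A.decompositionSubgroup K)⁻¹ * ⟨τ, hτD⟩) • x = x
  rw [mul_smul, hτ.smul_residue_eq x, ← hσ.smul_residue_eq x, inv_smul_smul]

end Inertia

section Formal

variable {K L : Type*} [Field K] [Field L] [Algebra K L]
variable (J : Type*) [AddCommGroup J] [Module HeckeAlg J]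
  [DistribMulAction (L ≃ₐ[K] L) J] [SMulCommClass (L ≃ₐ[K] L) HeckeAlg J]

/-- The Galois element `σ` as a Hecke-linear endomorphism of `J`. -/
def galLin (σ : L ≃ₐ[K] L) : J →ₗ[HeckeAlg] J :=
  DistribSMul.toLinearMap HeckeAlg J σ

@[simp] theorem galLin_apply (σ : L ≃ₐ[K] L) (x : J) : galLin J σ x = σ • x := rfl

/-- The Eichler-Shimura operator `R = σ² - T_ℓ σ + ℓ`. -/
def esOp (ℓ : Nat.Primes) (σ : L ≃ₐ[K] L) : J →ₗ[HeckeAlg] J :=
  (galLin J σ).comp (galLin J σ) - heckeGen ℓ • galLin J σ + ((ℓ : ℕ) : HeckeAlg) • LinearMap.id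

theorem esOp_apply (ℓ : Nat.Primes) (σ : L ≃ₐ[K] L) (x : J) :
    esOp J ℓ σ x = σ • σ • x - heckeGen ℓ • (σ • x) + (ℓ : ℕ) • x := by
  simp only [esOp, LinearMap.add_apply, LinearMap.sub_apply, LinearMap.comp_apply, galLin_apply,
    LinearMap.smul_apply, LinearMap.id_apply]
  congr 1
  rw [← Nat.cast_smul_eq_nsmul HeckeAlg]

/-- The generators of the kernel of the universal specialization. -/
def specGens (A : ValuationSubring L) (ℓ : Nat.Primes) (σ : L ≃ₐ[K] L) : Set J :=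
  {y | ∃ τ ∈ A.inertiaSubgroupIn K, ∃ x : J, y = τ • x - x} ∪ Set.range (esOp J ℓ σ)

/-- The kernel of the universal specialization, as a Hecke submodule. -/
def specKer (A : ValuationSubring L) (ℓ : Nat.Primes) (σ : L ≃ₐ[K] L) : Submodule HeckeAlg J :=
  Submodule.span HeckeAlg (specGens J A ℓ σ)

variable {J}

theorem smul_mem_specGens {A : ValuationSubring L} {ℓ : Nat.Primes} {σ : L ≃ₐ[K] L}
    (t : HeckeAlg) {y : J} (hy : y ∈ specGens J A ℓ σ) : t • y ∈ specGens J A ℓ σ := by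
  rcases hy with ⟨τ, hτ, x, rfl⟩ | ⟨x, rfl⟩
  · exact Or.inl ⟨τ, hτ, t • x, by rw [smul_sub, smul_comm τ t x]⟩
  · exact Or.inr ⟨t • x, by rw [map_smul]⟩

theorem smul_mem_closure_specGens {A : ValuationSubring L} {ℓ : Nat.Primes} {σ : L ≃ₐ[K] L}
    (t : HeckeAlg) {y : J} (hy : y ∈ AddSubgroup.closure (specGens J A ℓ σ)) :
    t • y ∈ AddSubgroup.closure (specGens J A ℓ σ) := by
  induction hy using AddSubgroup.closure_induction with
  | mem z hz => exact AddSubgroup.subset_closure (smul_mem_specGens t hz)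
  | zero => rw [smul_zero]; exact AddSubgroup.zero_mem _
  | add z w _ _ hz hw => rw [smul_add]; exact AddSubgroup.add_mem _ hz hw
  | neg z _ hz => rw [smul_neg]; exact AddSubgroup.neg_mem _ hz

/-- The Hecke span of the generators is just the additive subgroup they generate. -/
theorem mem_closure_of_mem_specKer {A : ValuationSubring L} {ℓ : Nat.Primes} {σ : L ≃ₐ[K] L}
    {y : J} (hy : y ∈ specKer J A ℓ σ) : y ∈ AddSubgroup.closure (specGens J A ℓ σ) := by
  unfold specKer at hy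
  induction hy using Submodule.span_induction with
  | mem x hx => exact AddSubgroup.subset_closure hx
  | zero => exact AddSubgroup.zero_mem _
  | add x y _ _ hx hy => exact AddSubgroup.add_mem _ hx hy
  | smul t x _ hx => exact smul_mem_closure_specGens t hx

theorem inertia_sub_mem_specKer {A : ValuationSubring L} {ℓ : Nat.Primes} {σ : L ≃ₐ[K] L}
    {τ : L ≃ₐ[K] L} (hτ : τ ∈ A.inertiaSubgroupIn K) (x : J) :
    τ • x - x ∈ specKer J A ℓ σ :=
  Submodule.subset_span (Or.inl ⟨τ, hτ, x, rfl⟩)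

theorem esOp_mem_specKer {A : ValuationSubring L} {ℓ : Nat.Primes} {σ : L ≃ₐ[K] L} (x : J) :
    esOp J ℓ σ x ∈ specKer J A ℓ σ :=
  Submodule.subset_span (Or.inr ⟨x, rfl⟩)

theorem galLin_comm_esOp (ℓ : Nat.Primes) (σ : L ≃ₐ[K] L) (x : J) :
    σ • esOp J ℓ σ x = esOp J ℓ σ (σ • x) := by
  rw [esOp_apply, esOp_apply, smul_add, smul_sub, smul_comm σ (heckeGen ℓ), smul_comm σ (ℓ : ℕ)]

/-- The kernel is stable under a Frobenius lift (any element of the decomposition group). -/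
theorem specKer_map_le {A : ValuationSubring L} {ℓ : Nat.Primes} {σ : L ≃ₐ[K] L}
    (hσ : σ ∈ A.decompositionSubgroup K) :
    specKer J A ℓ σ ≤ (specKer J A ℓ σ).comap (galLin J σ) := by
  unfold specKer
  rw [Submodule.span_le]
  rintro y (⟨τ, hτ, x, rfl⟩ | ⟨x, rfl⟩)
  · simp only [SetLike.mem_coe, Submodule.mem_comap, galLin_apply]
    have h : σ • (τ • x - x) = (σ * τ * σ⁻¹) • (σ • x) - σ • x := by
      rw [smul_sub, mul_smul, mul_smul, inv_smul_smul]
    rw [h]
    exact inertia_sub_mem_specKer (conj_mem_inertiaSubgroupIn hσ hτ) _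
  · simp only [SetLike.mem_coe, Submodule.mem_comap, galLin_apply]
    rw [galLin_comm_esOp]
    exact esOp_mem_specKer _

end Formal

section Main

variable {K L : Type*} [Field K] [Field L] [Algebra K L]
variable (p : ℕ) (J : Type) [AddCommGroup J] [Module HeckeAlg J]
  [DistribMulAction (L ≃ₐ[K] L) J] [SMulCommClass (L ≃ₐ[K] L) HeckeAlg J]

/-- **Formal part of S37.**  Given one Frobenius lift `σ₀` at `A` and the torsion statement
`hstar` (no nonzero `p`-power torsion element lies in the subgroup generated by the `τ x - x`,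
`τ` inertia, and the `σ₀² x - T_ℓ σ₀ x + ℓ x`), the universal quotient is a specialization
satisfying the Eichler-Shimura relation. -/
theorem exists_specialization_of_torsion_free (A : ValuationSubring L) (ℓ : ℕ) (hℓ : ℓ.Prime)
    (σ₀ : L ≃ₐ[K] L) (hσ₀ : A.IsFrobeniusAt σ₀ ℓ)
    (hstar : ∀ x : J, (∃ n : ℕ, p ^ n • x = 0) →
      x ∈ AddSubgroup.closure (specGens J A ⟨ℓ, hℓ⟩ σ₀) → x = 0) :
    ∃ (J' : Type) (_ : AddCommGroup J') (_ : Module HeckeAlg J') (sp : J →+ J')
      (F : J' →+ J'),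
      IsSpecialization (K := K) p J J' A ℓ sp F ∧ SpecialFibreRelation J' ℓ hℓ F := by
  have hD := hσ₀.mem_decompositionSubgroup
  let S : Submodule HeckeAlg J := specKer J A ⟨ℓ, hℓ⟩ σ₀
  let F : (J ⧸ S) →ₗ[HeckeAlg] (J ⧸ S) := S.mapQ S (galLin J σ₀) (specKer_map_le hD)
  refine ⟨J ⧸ S, inferInstance, inferInstance, S.mkQ.toAddMonoidHom, F.toAddMonoidHom, ?_, ?_⟩
  · refine ⟨?_, ?_, ?_, ?_⟩
    · intro T x
      exact map_smul S.mkQ T x
    · intro σ hσ x
      show S.mkQ (σ • x) = S.mkQ x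
      rw [← sub_eq_zero, ← map_sub, Submodule.mkQ_apply, Submodule.Quotient.mk_eq_zero]
      exact inertia_sub_mem_specKer hσ x
    · intro σ hσ x
      show S.mkQ (σ • x) = F (S.mkQ x)
      have hF : F (S.mkQ x) = S.mkQ (σ₀ • x) := by
        simp only [F, Submodule.mkQ_apply, Submodule.mapQ_apply, galLin_apply]
      rw [hF, ← sub_eq_zero, ← map_sub, Submodule.mkQ_apply, Submodule.Quotient.mk_eq_zero]
      have hτ := inv_mul_mem_inertiaSubgroupIn_of_isFrobeniusAt hσ₀ hσ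
      have h : σ • x - σ₀ • x = (σ₀ * (σ₀⁻¹ * σ) * σ₀⁻¹) • (σ₀ • x) - σ₀ • x := by
        rw [mul_smul, mul_smul, inv_smul_smul, mul_smul, smul_inv_smul]
      rw [h]
      exact inertia_sub_mem_specKer (conj_mem_inertiaSubgroupIn hD hτ) _
    · intro x hx hsp
      have hxS : x ∈ S := by
        have : S.mkQ x = 0 := hsp
        rwa [Submodule.mkQ_apply, Submodule.Quotient.mk_eq_zero] at this
      exact hstar x hx (mem_closure_of_mem_specKer hxS)
  · intro y
    obtain ⟨x, rfl⟩ := S.mkQ_surjective y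
    show F (F (S.mkQ x)) - heckeGen ⟨ℓ, hℓ⟩ • F (S.mkQ x) + ℓ • S.mkQ x = 0
    have hF : ∀ z : J, F (S.mkQ z) = S.mkQ (σ₀ • z) := by
      intro z
      simp only [F, Submodule.mkQ_apply, Submodule.mapQ_apply, galLin_apply]
    rw [hF, hF, ← map_smul, ← map_nsmul, ← map_sub, ← map_add, Submodule.mkQ_apply,
      Submodule.Quotient.mk_eq_zero]
    have h1 := esOp_mem_specKer (A := A) (ℓ := ⟨ℓ, hℓ⟩) (σ := σ₀) x
    have h2 := esOp_apply (K := K) (L := L) J ⟨ℓ, hℓ⟩ σ₀ x
    rw [h2] at h1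
    exact h1

/-- **S37 from the torsion statement**, for an arbitrary Hecke-Galois module: if Frobenius lifts
exist at every `A` over `ℓ ∤ N p` and the torsion statement holds for one of them, then
`SpecializationExists`. -/
theorem specializationExists_of_torsion_free (N : ℕ)
    (h : ∀ ℓ : ℕ, (hℓ : ℓ.Prime) → ¬ ℓ ∣ N * p →
      ∀ A : ValuationSubring L, A.LiesOverPrime ℓ →
        ∃ σ₀ : L ≃ₐ[K] L, A.IsFrobeniusAt σ₀ ℓ ∧
          ∀ x : J, (∃ n : ℕ, p ^ n • x = 0) →
            x ∈ AddSubgroup.closure (specGens J A ⟨ℓ, hℓ⟩ σ₀) → x = 0) :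
    SpecializationExists (K := K) (L := L) N p J := by
  intro ℓ hℓ hℓN A hA
  obtain ⟨σ₀, hσ₀, hstar⟩ := h ℓ hℓ hℓN A hA
  exact exists_specialization_of_torsion_free p J A ℓ hℓ σ₀ hσ₀ hstar

/-- **Formal part of S37, reduction-map form.**  It suffices to have ANY additive map `red` out
of `J` (no Hecke structure, no Frobenius on the target needed) which kills inertia differences
and the Eichler-Shimura operator of ONE Frobenius lift, and is injective on `p`-power torsion. -/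
theorem exists_specialization_of_red {X : Type*} [AddCommGroup X] (A : ValuationSubring L)
    (ℓ : ℕ) (hℓ : ℓ.Prime) (σ₀ : L ≃ₐ[K] L) (hσ₀ : A.IsFrobeniusAt σ₀ ℓ) (red : J →+ X)
    (hin : ∀ τ ∈ A.inertiaSubgroupIn K, ∀ x : J, red (τ • x) = red x)
    (hes : ∀ x : J, red (σ₀ • σ₀ • x - heckeGen ⟨ℓ, hℓ⟩ • (σ₀ • x) + ℓ • x) = 0)
    (hinj : ∀ x : J, (∃ n : ℕ, p ^ n • x = 0) → red x = 0 → x = 0) :
    ∃ (J' : Type) (_ : AddCommGroup J') (_ : Module HeckeAlg J') (sp : J →+ J')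
      (F : J' →+ J'),
      IsSpecialization (K := K) p J J' A ℓ sp F ∧ SpecialFibreRelation J' ℓ hℓ F := by
  refine exists_specialization_of_torsion_free p J A ℓ hℓ σ₀ hσ₀ fun x hx hmem => hinj x hx ?_
  have hle : AddSubgroup.closure (specGens J A ⟨ℓ, hℓ⟩ σ₀) ≤ red.ker := by
    rw [AddSubgroup.closure_le]
    rintro y (⟨τ, hτ, z, rfl⟩ | ⟨z, rfl⟩)
    · show red (τ • z - z) = 0
      rw [map_sub, hin τ hτ z, sub_self]
    · show red (esOp J ⟨ℓ, hℓ⟩ σ₀ z) = 0
      rw [esOp_apply (K := K) (L := L) J ⟨ℓ, hℓ⟩ σ₀ z]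
      exact hes z
  exact hle hmem

/-- **S37 from reduction maps**, for an arbitrary Hecke-Galois module. -/
theorem specializationExists_of_red (N : ℕ)
    (h : ∀ ℓ : ℕ, (hℓ : ℓ.Prime) → ¬ ℓ ∣ N * p →
      ∀ A : ValuationSubring L, A.LiesOverPrime ℓ →
        ∃ (σ₀ : L ≃ₐ[K] L) (X : Type) (_ : AddCommGroup X) (red : J →+ X),
          A.IsFrobeniusAt σ₀ ℓ ∧
          (∀ τ ∈ A.inertiaSubgroupIn K, ∀ x : J, red (τ • x) = red x) ∧
          (∀ x : J, red (σ₀ • σ₀ • x - heckeGen ⟨ℓ, hℓ⟩ • (σ₀ • x) + ℓ • x) = 0) ∧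
          (∀ x : J, (∃ n : ℕ, p ^ n • x = 0) → red x = 0 → x = 0)) :
    SpecializationExists (K := K) (L := L) N p J := by
  intro ℓ hℓ hℓN A hA
  obtain ⟨σ₀, X, _, red, hσ₀, hin, hes, hinj⟩ := h ℓ hℓ hℓN A hA
  exact exists_specialization_of_red p J A ℓ hℓ σ₀ hσ₀ red hin hes hinj

end Main

end Fermat.Agent.H37

end
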