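import Mathlib

/-!
# Abstract linear algebra for a group acting on a plane over `ZMod p` with a stable line

`V` is a `ZMod p`-module with fewer than `p ^ 3` elements, `G` a group acting additively on `V`,
and `N` a `G`-stable submodule with `N ≠ ⊥`, `N ≠ ⊤` (so `N` is a line in a plane).

* `lineFixer N` : the subgroup of `G` acting trivially on `N` (kernel of the character `χ₁`);
* `lineCofixer N hN` : the subgroup of `G` acting trivially on `V / N` (kernel of `χ₂`);
* a unipotent element (`(σ - 1)² = 0`) lies in both;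
* if `(σ - 1) V ≤ T` for a proper submodule `T` and all `σ` in a set `S`, then `S` is contained
  in one of the two subgroups.
-/

set_option autoImplicit false

namespace Fermat.Agent.H37

open Module

section Abstract

variable {p : ℕ} {G V : Type*} [Group G] [AddCommGroup V] [Module (ZMod p) V]
  [DistribMulAction G V]

/-- The subgroup of `G` fixing a submodule pointwise. -/
def lineFixer (N : Submodule (ZMod p) V) : Subgroup G where
  carrier := {σ | ∀ x ∈ N, σ • x = x}
  one_mem' := fun x _ => one_smul G x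
  mul_mem' := by
    intro σ τ hσ hτ x hx
    rw [mul_smul, hτ x hx, hσ x hx]
  inv_mem' := by
    intro σ hσ x hx
    rw [inv_smul_eq_iff, hσ x hx]

theorem mem_lineFixer {N : Submodule (ZMod p) V} {σ : G} :
    σ ∈ lineFixer (G := G) N ↔ ∀ x ∈ N, σ • x = x := Iff.rfl

/-- The subgroup of `G` acting trivially on the quotient by a stable submodule. -/
def lineCofixer (N : Submodule (ZMod p) V) (hN : ∀ σ : G, ∀ x ∈ N, σ • x ∈ N) : Subgroup G where
  carrier := {σ | ∀ x : V, σ • x - x ∈ N}
  one_mem' := fun x => by rw [one_smul, sub_self]; exact N.zero_mem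
  mul_mem' := by
    intro σ τ hσ hτ x
    have h : (σ * τ) • x - x = σ • (τ • x - x) + (σ • x - x) := by
      rw [mul_smul, smul_sub]; abel
    rw [h]
    exact N.add_mem (hN σ _ (hτ x)) (hσ x)
  inv_mem' := by
    intro σ hσ x
    have h := hσ (σ⁻¹ • x)
    rw [smul_inv_smul] at h
    have h2 : σ⁻¹ • x - x = -(x - σ⁻¹ • x) := by abel
    rw [h2]
    exact N.neg_mem h

theorem mem_lineCofixer {N : Submodule (ZMod p) V} {hN : ∀ σ : G, ∀ x ∈ N, σ • x ∈ N} {σ : G} :
    σ ∈ lineCofixer N hN ↔ ∀ x : V, σ • x - x ∈ N := Iff.rfl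

theorem lineFixer_normal (N : Submodule (ZMod p) V) (hN : ∀ σ : G, ∀ x ∈ N, σ • x ∈ N) :
    (lineFixer (G := G) N).Normal := by
  constructor
  intro σ hσ τ x hx
  rw [mul_smul, mul_smul, hσ _ (hN τ⁻¹ x hx), smul_inv_smul]

theorem lineCofixer_normal (N : Submodule (ZMod p) V) (hN : ∀ σ : G, ∀ x ∈ N, σ • x ∈ N) :
    (lineCofixer N hN).Normal := by
  constructor
  intro σ hσ τ x
  have h : (τ * σ * τ⁻¹) • x - x = τ • (σ • (τ⁻¹ • x) - τ⁻¹ • x) := by
    rw [mul_smul, mul_smul, smul_sub, smul_inv_smul]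
  rw [h]
  exact hN τ _ (hσ _)

variable [Fact p.Prime]

/-- A proper nonzero submodule of a `ZMod p`-module with fewer than `p ^ 3` elements has
dimension `1`, and the module has dimension `2`. -/
theorem finrank_line_plane (hfin : Finite V) (hcard : Nat.card V < p ^ 3)
    (N : Submodule (ZMod p) V) (hbot : N ≠ ⊥) (htop : N ≠ ⊤) :
    finrank (ZMod p) N = 1 ∧ finrank (ZMod p) V = 2 := by
  have hp : p.Prime := Fact.out
  have : Module.Finite (ZMod p) V := Module.Finite.of_finite
  have hfr : finrank (ZMod p) V ≤ 2 := by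
    have hc := Module.natCard_eq_pow_finrank (K := ZMod p) (V := V)
    rw [Nat.card_zmod] at hc
    rw [hc] at hcard
    have := (Nat.pow_lt_pow_iff_right hp.one_lt).mp hcard
    omega
  have h1 : finrank (ZMod p) N < finrank (ZMod p) V := Submodule.finrank_lt htop
  have h2 : finrank (ZMod p) N ≠ 0 := fun h => hbot (Submodule.finrank_eq_zero.mp h)
  omega

/-- A line is an atom. -/
theorem eq_line_of_le (hfin : Finite V) (hcard : Nat.card V < p ^ 3)
    (N : Submodule (ZMod p) V) (hbot : N ≠ ⊥) (htop : N ≠ ⊤)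
    (T : Submodule (ZMod p) V) (hT : T ≤ N) (hT0 : T ≠ ⊥) : T = N := by
  have : Module.Finite (ZMod p) V := Module.Finite.of_finite
  obtain ⟨h1, -⟩ := finrank_line_plane hfin hcard N hbot htop
  have h2 : finrank (ZMod p) T ≠ 0 := fun h => hT0 (Submodule.finrank_eq_zero.mp h)
  have h3 : finrank (ZMod p) T ≤ finrank (ZMod p) N := Submodule.finrank_mono hT
  exact Submodule.eq_of_le_of_finrank_eq hT (by omega)

/-- A line in a plane is a coatom. -/
theorem eq_line_of_ge (hfin : Finite V) (hcard : Nat.card V < p ^ 3)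
    (N : Submodule (ZMod p) V) (hbot : N ≠ ⊥) (htop : N ≠ ⊤)
    (T : Submodule (ZMod p) V) (hT : N ≤ T) (hT1 : T ≠ ⊤) : T = N := by
  have : Module.Finite (ZMod p) V := Module.Finite.of_finite
  obtain ⟨h1, h2⟩ := finrank_line_plane hfin hcard N hbot htop
  have h3 : finrank (ZMod p) T < finrank (ZMod p) V := Submodule.finrank_lt hT1
  have h4 : finrank (ZMod p) N ≤ finrank (ZMod p) T := Submodule.finrank_mono hT
  exact (Submodule.eq_of_le_of_finrank_eq hT (by omega)).symm

/-- The submodule `{x | σ x - x ∈ N}`. -/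
def preimageSubOne (N : Submodule (ZMod p) V) (σ : G) : Submodule (ZMod p) V :=
  AddSubgroup.toZModSubmodule p
    (N.toAddSubgroup.comap (DistribSMul.toAddMonoidHom V σ - AddMonoidHom.id V))

theorem mem_preimageSubOne {N : Submodule (ZMod p) V} {σ : G} {x : V} :
    x ∈ preimageSubOne N σ ↔ σ • x - x ∈ N := Iff.rfl

/-- A unipotent element acts trivially on a stable line and on the quotient by it. -/
theorem mem_lineFixer_lineCofixer_of_unipotent (hfin : Finite V) (hcard : Nat.card V < p ^ 3)
    (N : Submodule (ZMod p) V) (hN : ∀ σ : G, ∀ x ∈ N, σ • x ∈ N) (hbot : N ≠ ⊥) (htop : N ≠ ⊤)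
    (σ : G) (hσ : ∀ x : V, σ • (σ • x - x) = σ • x - x) :
    σ ∈ lineFixer (G := G) N ∧ σ ∈ lineCofixer N hN := by
  constructor
  · -- the fixed vectors in `N`
    intro x hx
    by_contra hne
    have hy0 : σ • x - x ≠ 0 := fun h => hne (sub_eq_zero.mp h)
    have hyN : σ • x - x ∈ N := N.sub_mem (hN σ x hx) hx
    have hK : N ⊓ preimageSubOne ⊥ σ = N := by
      apply eq_line_of_le hfin hcard N hbot htop _ inf_le_left
      intro h0
      have hmem : σ • x - x ∈ N ⊓ preimageSubOne (⊥ : Submodule (ZMod p) V) σ := by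
        refine ⟨hyN, ?_⟩
        rw [SetLike.mem_coe, mem_preimageSubOne, hσ x, sub_self]
        exact Submodule.zero_mem _
      rw [h0] at hmem
      exact hy0 ((Submodule.mem_bot _).mp hmem)
    have hx' : x ∈ N ⊓ preimageSubOne (⊥ : Submodule (ZMod p) V) σ := by rw [hK]; exact hx
    have := hx'.2
    rw [SetLike.mem_coe, mem_preimageSubOne, Submodule.mem_bot] at this
    exact hy0 this
  · intro x
    by_contra hne
    have hT : preimageSubOne N σ = N := by
      apply eq_line_of_ge hfin hcard N hbot htop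
      · intro z hz
        exact N.sub_mem (hN σ z hz) hz
      · intro h
        apply hne
        have : x ∈ preimageSubOne N σ := by rw [h]; trivial
        exact this
    apply htop
    rw [eq_top_iff]
    intro z _
    have h1 : σ • z - z ∈ preimageSubOne N σ := by
      rw [mem_preimageSubOne, hσ z, sub_self]
      exact N.zero_mem
    rw [hT] at h1
    have h2 : z ∈ preimageSubOne N σ := h1
    rw [hT] at h2
    exact h2

/-- If `(σ - 1) V ≤ T` for all `σ ∈ S` and a proper submodule `T`, then either all of `S` fixes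
the stable line `N` pointwise, or all of `S` acts trivially on `V / N`. -/
theorem subset_lineFixer_or_lineCofixer (hfin : Finite V) (hcard : Nat.card V < p ^ 3)
    (N : Submodule (ZMod p) V) (hN : ∀ σ : G, ∀ x ∈ N, σ • x ∈ N) (hbot : N ≠ ⊥) (htop : N ≠ ⊤)
    (T : Submodule (ZMod p) V) (hT : T ≠ ⊤) (S : Set G)
    (h : ∀ σ ∈ S, ∀ x : V, σ • x - x ∈ T) :
    (∀ σ ∈ S, σ ∈ lineFixer (G := G) N) ∨ (∀ σ ∈ S, σ ∈ lineCofixer N hN) := by
  by_cases hNT : N ≤ T
  · right
    have hTN : T = N := eq_line_of_ge hfin hcard N hbot htop T hNT hT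
    intro σ hσ x
    rw [← hTN]
    exact h σ hσ x
  · left
    have h0 : N ⊓ T = ⊥ := by
      by_contra h0
      apply hNT
      have := eq_line_of_le hfin hcard N hbot htop _ inf_le_left h0
      rw [← this]
      exact inf_le_right
    intro σ hσ x hx
    have hmem : σ • x - x ∈ N ⊓ T := ⟨N.sub_mem (hN σ x hx) hx, h σ hσ x⟩
    rw [h0, Submodule.mem_bot] at hmem
    exact sub_eq_zero.mp hmem

end Abstract

end Fermat.Agent.H37
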