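import Mathlib
import Fermat.Prelude.Def_FLTPrelim_ModularRep
import Fermat.Agent.H37.ThreeTorsionQ

/-!
# Generic glue for the torsion side of S51 (subtask X-G)
-/

set_option autoImplicit false

namespace Fermat.Agent.H37

open Module

/-- An element of `Qbar` fixed by the whole absolute Galois group is rational. -/
theorem A_gal_fixed (x : AlgebraicClosure ℚ)
    (h : ∀ σ : AlgebraicClosure ℚ ≃ₐ[ℚ] AlgebraicClosure ℚ, σ x = x) :
    ∃ q : ℚ, algebraMap ℚ (AlgebraicClosure ℚ) q = x :=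
  exists_rat_of_fixed x h

/-- A proper nonzero subspace of an `𝔽_p`-vector space with fewer than `p ^ 3` elements is a
line: it is generated by a single nonzero vector. -/
theorem A_line (p : ℕ) [Fact p.Prime] (M : Type*) [AddCommGroup M] [Module (ZMod p) M]
    (hfin : Finite M) (hcard : Nat.card M < p ^ 3) (N : Submodule (ZMod p) M)
    (hbot : N ≠ ⊥) (htop : N ≠ ⊤) :
    ∃ P : M, P ≠ 0 ∧ P ∈ N ∧ ∀ Q ∈ N, ∃ k : ℕ, Q = k • P := by
  have hp : p.Prime := Fact.out
  have : Module.Finite (ZMod p) M := Module.Finite.of_finite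
  have hfr : finrank (ZMod p) M ≤ 2 := by
    have hc := Module.natCard_eq_pow_finrank (K := ZMod p) (V := M)
    rw [Nat.card_zmod] at hc
    rw [hc] at hcard
    have := (Nat.pow_lt_pow_iff_right hp.one_lt).mp hcard
    omega
  have hN1 : finrank (ZMod p) N ≤ 1 := by
    have := Submodule.finrank_lt htop
    omega
  obtain ⟨v, hv⟩ := finrank_le_one_iff.mp hN1
  obtain ⟨w, hwN, hw0⟩ := Submodule.exists_mem_ne_zero_of_ne_bot hbot
  have hv0 : (v : M) ≠ 0 := by
    intro h0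
    obtain ⟨c, hc⟩ := hv ⟨w, hwN⟩
    apply hw0
    have := congrArg Subtype.val hc
    simp only [Submodule.coe_smul] at this
    rw [← this, h0, smul_zero]
  refine ⟨v, hv0, v.2, ?_⟩
  intro Q hQ
  obtain ⟨c, hc⟩ := hv ⟨Q, hQ⟩
  refine ⟨c.val, ?_⟩
  have h1 := congrArg Subtype.val hc
  simp only [Submodule.coe_smul] at h1
  rw [← h1, ← Nat.cast_smul_eq_nsmul (ZMod p), ZMod.natCast_zmod_val]

open WeierstrassCurve WeierstrassCurve.Affine
open scoped WeierstrassCurve.Affine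

/-- (A3a) The 3-torsion of an elliptic curve over `ℚ` is nontrivial over `Qbar`. -/
theorem nontrivial_torsion_three (E : WeierstrassCurve ℚ) (hΔ : E.Δ ≠ 0) :
    Nontrivial (Submodule.torsionBy ℤ (E⁄(AlgebraicClosure ℚ)).Point ((3 : ℕ) : ℤ)) := by
  obtain ⟨P₀, hP₀, hP₀mem⟩ :=
    exists_ne_zero_torsion_three (E⁄(AlgebraicClosure ℚ)) (Δ_baseChange_ne_zero E hΔ)
  exact ⟨⟨⟨P₀, hP₀mem⟩, 0, fun h => hP₀ (congrArg Subtype.val h)⟩⟩

/-- (A3b) A Galois-stable proper nonzero submodule of `E[3]` yields a rational root of the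
3-division polynomial. -/
theorem exists_rat_root_Ψ₃_of_stable (E : WeierstrassCurve ℚ) (hΔ : E.Δ ≠ 0)
    (N : Submodule (ZMod 3) (Submodule.torsionBy ℤ (E⁄(AlgebraicClosure ℚ)).Point ((3 : ℕ) : ℤ)))
    (hN : Point.IsGaloisStable ℚ N) (hbot : N ≠ ⊥) (htop : N ≠ ⊤) :
    ∃ x₃ : ℚ, E.Ψ₃.eval x₃ = 0 := by
  have hred : ¬ Point.GaloisRepIsIrreducible (K := AlgebraicClosure ℚ) ℚ E 3 := by
    rintro ⟨-, h⟩
    rcases h N hN with h | h
    · exact hbot h
    · exact htop h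
  obtain ⟨q, hq⟩ := exists_rat_root_psi3_of_reducible E hΔ hred
  exact ⟨q, by rw [eval_Ψ₃]; exact hq⟩

end Fermat.Agent.H37

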