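import Mathlib
import Fermat.Prelude.Def_FLTPrelim_GaloisRep
import Fermat.Prelude.Def_FLTPrelim_CofixedLine
import Fermat.Prelude.Def_FLTPrelim_Ramification
import Fermat.Agent.H37.TorsionGlue
import Fermat.Agent.H37.S13Abstract

/-!
# S13, linear-algebra glue (work package WP8a)

For `E : WeierstrassCurve ℚ`, a prime `p` and `V = E[p](Qbar)` (the prelude's `torsionBy`):

* `torsionField E p` : the field generated by the coordinates of the points of `V`; it is
  finite-dimensional when `V` is finite, and its fixing subgroup acts trivially on `V`;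
* `exists_rational_point_of_fixed` : a Galois-fixed nonzero point of `V` comes from a rational
  point of order `p`;
* `cofixedLine_or_fixedPoint` : the endgame of Serre's character argument, with the local and
  global inputs as hypotheses.
-/

set_option autoImplicit false

namespace Fermat.Agent.H37

open WeierstrassCurve WeierstrassCurve.Affine
open scoped WeierstrassCurve.Affine

local notation "Qbar" => AlgebraicClosure ℚ

section Concrete

variable (E : WeierstrassCurve ℚ) (p : ℕ)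

/-- The `x`-coordinate of a point (junk value `0` at the origin). -/
noncomputable def xCoord : (E⁄Qbar).Point → Qbar
  | .zero => 0
  | .some x _ _ => x

/-- The `y`-coordinate of a point (junk value `0` at the origin). -/
noncomputable def yCoord : (E⁄Qbar).Point → Qbar
  | .zero => 0
  | .some _ y _ => y

/-- A Galois element fixing both coordinates of a point fixes the point. -/
theorem smul_eq_self_of_coords (σ : Qbar ≃ₐ[ℚ] Qbar) (P : (E⁄Qbar).Point)
    (hx : σ (xCoord E P) = xCoord E P) (hy : σ (yCoord E P) = yCoord E P) : σ • P = P := by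
  rcases P with _ | ⟨x, y, h⟩
  · exact smul_zero (A := (E⁄Qbar).Point) σ
  · obtain ⟨h', hσ⟩ := smul_some E σ h
    rw [hσ]
    simp only [xCoord, yCoord] at hx hy
    simp only [Point.some.injEq]
    exact ⟨hx, hy⟩

/-- Conversely the coordinates of a fixed point are fixed. -/
theorem coords_fixed_of_smul_eq_self (σ : Qbar ≃ₐ[ℚ] Qbar) (P : (E⁄Qbar).Point)
    (h : σ • P = P) : σ (xCoord E P) = xCoord E P ∧ σ (yCoord E P) = yCoord E P := by
  rcases P with _ | ⟨x, y, hxy⟩
  · exact ⟨map_zero σ, map_zero σ⟩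
  · obtain ⟨h', hσ⟩ := smul_some E σ hxy
    rw [hσ] at h
    simp only [Point.some.injEq] at h
    exact h

/-- The set of coordinates of the points of `E[p]`. -/
def torsionCoordSet : Set Qbar :=
  Set.range (fun v : Submodule.torsionBy ℤ (E⁄Qbar).Point (p : ℤ) => xCoord E v.1) ∪
    Set.range (fun v : Submodule.torsionBy ℤ (E⁄Qbar).Point (p : ℤ) => yCoord E v.1)

/-- The field generated over `ℚ` by the coordinates of the points of `E[p]`. -/
noncomputable def torsionField : IntermediateField ℚ Qbar :=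
  IntermediateField.adjoin ℚ (torsionCoordSet E p)

theorem finiteDimensional_torsionField
    (hfin : Finite (Submodule.torsionBy ℤ (E⁄Qbar).Point (p : ℤ))) :
    FiniteDimensional ℚ (torsionField E p) := by
  have hS : (torsionCoordSet E p).Finite :=
    (Set.finite_range _).union (Set.finite_range _)
  have : Finite (torsionCoordSet E p) := hS
  have hgal := isGalois_Qbar
  apply IntermediateField.finiteDimensional_adjoin
  intro x _
  exact Algebra.IsIntegral.isIntegral x

/-- The fixing subgroup of the torsion field acts trivially on `E[p]`. -/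
theorem smul_eq_self_of_mem_fixingSubgroup (σ : Qbar ≃ₐ[ℚ] Qbar)
    (hσ : σ ∈ (torsionField E p).fixingSubgroup)
    (v : Submodule.torsionBy ℤ (E⁄Qbar).Point (p : ℤ)) : σ • v = v := by
  apply Subtype.ext
  show σ • (v : (E⁄Qbar).Point) = v
  rw [IntermediateField.mem_fixingSubgroup_iff] at hσ
  apply smul_eq_self_of_coords
  · apply hσ
    apply IntermediateField.subset_adjoin
    exact Or.inl ⟨v, rfl⟩
  · apply hσ
    apply IntermediateField.subset_adjoin
    exact Or.inr ⟨v, rfl⟩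

/-- A nonzero Galois-fixed point of `E[p](Qbar)` is the base change of a rational point of
order `p`. -/
theorem exists_rational_point_of_fixed
    (P : Submodule.torsionBy ℤ (E⁄Qbar).Point (p : ℤ)) (hP : P ≠ 0)
    (hfix : ∀ σ : Qbar ≃ₐ[ℚ] Qbar, σ • P = P) :
    ∃ Q : (E⁄ℚ).Point, Q ≠ 0 ∧ p • Q = 0 ∧
      Point.baseChange ℚ Qbar Q = (P : (E⁄Qbar).Point) := by
  obtain ⟨P, hP5⟩ := P
  have hP0 : P ≠ 0 := fun h => hP (Subtype.ext h)
  have hpP : p • P = 0 := by
    have := (Submodule.mem_torsionBy_iff _ _).mp hP5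
    rwa [Nat.cast_smul_eq_nsmul] at this
  have hfix' : ∀ σ : Qbar ≃ₐ[ℚ] Qbar, σ • P = P := fun σ => congrArg Subtype.val (hfix σ)
  rcases P with _ | ⟨x, y, hxy⟩
  · exact absurd rfl hP0
  have hx : ∀ σ : Qbar ≃ₐ[ℚ] Qbar, σ x = x := fun σ =>
    (coords_fixed_of_smul_eq_self E σ _ (hfix' σ)).1
  have hy : ∀ σ : Qbar ≃ₐ[ℚ] Qbar, σ y = y := fun σ =>
    (coords_fixed_of_smul_eq_self E σ _ (hfix' σ)).2
  obtain ⟨qx, rfl⟩ := A_gal_fixed x hx
  obtain ⟨qy, rfl⟩ := A_gal_fixed y hy
  have hq : (E⁄ℚ).Nonsingular qx qy :=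
    (WeierstrassCurve.Affine.baseChange_nonsingular E (Algebra.ofId ℚ Qbar).injective qx qy).mp hxy
  refine ⟨Point.some qx qy hq, Point.some_ne_zero hq, ?_, rfl⟩
  apply Point.map_injective (W' := E) (Algebra.ofId ℚ Qbar)
  rw [map_nsmul, map_zero]
  exact hpP

variable [Fact p.Prime]

/-- **Endgame of the character argument for S13.**  Suppose `E[p]` has fewer than `p ^ 3`
points and the mod-`p` representation is reducible (and `E[p]` is nontrivial).  Given
* (global) a normal subgroup of finite level containing an inertia group at every prime is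
  everything,
* (local, `ℓ ≠ p`) inertia at some place over `ℓ` acts unipotently,
* (local, `p`) for some place over `p`, `(σ - 1) E[p]` lies in a fixed proper submodule for
  all `σ` in inertia,
either there is a Galois-stable cofixed line, or a nonzero Galois-fixed point of `E[p]`. -/
theorem cofixedLine_or_fixedPoint
    (hfin : Finite (Submodule.torsionBy ℤ (E⁄Qbar).Point (p : ℤ)))
    (hcard : Nat.card (Submodule.torsionBy ℤ (E⁄Qbar).Point (p : ℤ)) < p ^ 3)
    (hnt : Nontrivial (Submodule.torsionBy ℤ (E⁄Qbar).Point (p : ℤ)))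
    (hred : ¬ Point.GaloisRepIsIrreducible (K := Qbar) ℚ E p)
    (hglobal : ∀ (H : Subgroup (Qbar ≃ₐ[ℚ] Qbar)), H.Normal →
      ∀ (L : IntermediateField ℚ Qbar), FiniteDimensional ℚ L → L.fixingSubgroup ≤ H →
        H ≠ ⊤ → ∃ ℓ : ℕ, ℓ.Prime ∧ ∀ A : ValuationSubring Qbar, A.LiesOverPrime ℓ →
          ∃ σ ∈ A.inertiaSubgroupIn ℚ, σ ∉ H)
    (hloc : ∀ ℓ : ℕ, ℓ.Prime → ℓ ≠ p → ∃ A : ValuationSubring Qbar, A.LiesOverPrime ℓ ∧
      ∀ σ ∈ A.inertiaSubgroupIn ℚ, ∀ x : Submodule.torsionBy ℤ (E⁄Qbar).Point (p : ℤ),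
        σ • (σ • x - x) = σ • x - x)
    (hlocp : ∃ A : ValuationSubring Qbar, A.LiesOverPrime p ∧
      ∃ T : Submodule (ZMod p) (Submodule.torsionBy ℤ (E⁄Qbar).Point (p : ℤ)), T ≠ ⊤ ∧
        ∀ σ ∈ A.inertiaSubgroupIn ℚ, ∀ x : Submodule.torsionBy ℤ (E⁄Qbar).Point (p : ℤ),
          σ • x - x ∈ T) :
    Point.HasGaloisStableCofixedLine (K := Qbar) ℚ E p ∨
      ∃ P : Submodule.torsionBy ℤ (E⁄Qbar).Point (p : ℤ), P ≠ 0 ∧
        ∀ σ : Qbar ≃ₐ[ℚ] Qbar, σ • P = P := by
  have hp : p.Prime := Fact.out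
  unfold Point.GaloisRepIsIrreducible at hred
  rw [not_and] at hred
  have hred' := hred hnt
  push Not at hred'
  obtain ⟨N, hstable, hbot, htop⟩ := hred'
  have hN : ∀ σ : Qbar ≃ₐ[ℚ] Qbar, ∀ x ∈ N, σ • x ∈ N := hstable
  have hL := finiteDimensional_torsionField E p hfin
  obtain ⟨Ap, hAp, T, hT, hTσ⟩ := hlocp
  rcases subset_lineFixer_or_lineCofixer hfin hcard N hN hbot htop T hT
      (Ap.inertiaSubgroupIn ℚ : Set (Qbar ≃ₐ[ℚ] Qbar)) hTσ with h1 | h2
  · -- `χ₁` is unramified everywhere, hence trivial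
    right
    have htopH : lineFixer (G := Qbar ≃ₐ[ℚ] Qbar) N = ⊤ := by
      by_contra hne
      obtain ⟨ℓ, hℓ, hA⟩ := hglobal _ (lineFixer_normal N hN) (torsionField E p) hL
        (fun σ hσ x _ => smul_eq_self_of_mem_fixingSubgroup E p σ hσ x) hne
      by_cases hℓp : ℓ = p
      · subst hℓp
        obtain ⟨σ, hσ, hσH⟩ := hA Ap hAp
        exact hσH (h1 σ hσ)
      · obtain ⟨A, hAℓ, hAσ⟩ := hloc ℓ hℓ hℓp
        obtain ⟨σ, hσ, hσH⟩ := hA A hAℓ
        exact hσH (mem_lineFixer_lineCofixer_of_unipotent hfin hcard N hN hbot htop σ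
          (hAσ σ hσ)).1
    obtain ⟨w, hwN, hw0⟩ := Submodule.exists_mem_ne_zero_of_ne_bot hbot
    refine ⟨w, hw0, fun σ => ?_⟩
    have : σ ∈ lineFixer (G := Qbar ≃ₐ[ℚ] Qbar) N := by rw [htopH]; trivial
    exact this w hwN
  · -- `χ₂` is unramified everywhere, hence trivial
    left
    have htopH : lineCofixer N hN = ⊤ := by
      by_contra hne
      obtain ⟨ℓ, hℓ, hA⟩ := hglobal _ (lineCofixer_normal N hN) (torsionField E p) hL
        (fun σ hσ x => by
          rw [smul_eq_self_of_mem_fixingSubgroup E p σ hσ x, sub_self]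
          exact N.zero_mem) hne
      by_cases hℓp : ℓ = p
      · subst hℓp
        obtain ⟨σ, hσ, hσH⟩ := hA Ap hAp
        exact hσH (h2 σ hσ)
      · obtain ⟨A, hAℓ, hAσ⟩ := hloc ℓ hℓ hℓp
        obtain ⟨σ, hσ, hσH⟩ := hA A hAℓ
        exact hσH (mem_lineFixer_lineCofixer_of_unipotent hfin hcard N hN hbot htop σ
          (hAσ σ hσ)).2
    refine ⟨N, hstable, hbot, htop, fun σ x => ?_⟩
    have : σ ∈ lineCofixer N hN := by rw [htopH]; trivial
    exact this x

/-- **S13 from its inputs** (generic curve over `ℚ`): if moreover `E` has no rational point of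
order `p`, the reducible representation has a Galois-stable cofixed line. -/
theorem hasCofixedLine_of_inputs
    (hfin : Finite (Submodule.torsionBy ℤ (E⁄Qbar).Point (p : ℤ)))
    (hcard : Nat.card (Submodule.torsionBy ℤ (E⁄Qbar).Point (p : ℤ)) < p ^ 3)
    (hnt : Nontrivial (Submodule.torsionBy ℤ (E⁄Qbar).Point (p : ℤ)))
    (hred : ¬ Point.GaloisRepIsIrreducible (K := Qbar) ℚ E p)
    (hglobal : ∀ (H : Subgroup (Qbar ≃ₐ[ℚ] Qbar)), H.Normal →
      ∀ (L : IntermediateField ℚ Qbar), FiniteDimensional ℚ L → L.fixingSubgroup ≤ H →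
        H ≠ ⊤ → ∃ ℓ : ℕ, ℓ.Prime ∧ ∀ A : ValuationSubring Qbar, A.LiesOverPrime ℓ →
          ∃ σ ∈ A.inertiaSubgroupIn ℚ, σ ∉ H)
    (hloc : ∀ ℓ : ℕ, ℓ.Prime → ℓ ≠ p → ∃ A : ValuationSubring Qbar, A.LiesOverPrime ℓ ∧
      ∀ σ ∈ A.inertiaSubgroupIn ℚ, ∀ x : Submodule.torsionBy ℤ (E⁄Qbar).Point (p : ℤ),
        σ • (σ • x - x) = σ • x - x)
    (hlocp : ∃ A : ValuationSubring Qbar, A.LiesOverPrime p ∧
      ∃ T : Submodule (ZMod p) (Submodule.torsionBy ℤ (E⁄Qbar).Point (p : ℤ)), T ≠ ⊤ ∧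
        ∀ σ ∈ A.inertiaSubgroupIn ℚ, ∀ x : Submodule.torsionBy ℤ (E⁄Qbar).Point (p : ℤ),
          σ • x - x ∈ T)
    (hrat : ∀ Q : (E⁄ℚ).Point, p • Q = 0 → Q = 0) :
    Point.HasGaloisStableCofixedLine (K := Qbar) ℚ E p := by
  rcases cofixedLine_or_fixedPoint E p hfin hcard hnt hred hglobal hloc hlocp with h | h
  · exact h
  · obtain ⟨P, hP, hfix⟩ := h
    obtain ⟨Q, hQ, hpQ, -⟩ := exists_rational_point_of_fixed E p P hP hfix
    exact absurd (hrat Q hpQ) hQ

end Concrete

end Fermat.Agent.H37
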