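import Fermat.Prelude.Def_ModularCurve_HeckeModule
import Fermat.Agent.H53.FrobeniusExists
import Fermat.Agent.H37.ES37Formal

/-!
# P-ES / S37 in the frozen shape, conditional on the torsion statement

`s37_of_red` has EXACTLY the binders and conclusion of the frozen statement S37, plus one
hypothesis: for every `ℓ ∤ N p`, every place `A` over `ℓ` and every Frobenius lift `σ₀` at `A`
there is an additive map `red` out of `J₀(N)` killing inertia differences and
`σ₀² - T_ℓ σ₀ + ℓ`, injective on `p`-power torsion.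
-/

set_option autoImplicit false

namespace Fermat.Agent.H37

open ModularCurve

/-- The reduction-map hypothesis needed for S37 (existence of Frobenius lifts is supplied by
`Fermat.Agent.H53.exists_isFrobeniusAt_algebraicClosure`). -/
def ES37RedHyp (N p : ℕ) [NeZero N]
    [Module HeckeAlg (JZero N)] : Prop :=
  ∀ ℓ : ℕ, (hℓ : ℓ.Prime) → ¬ ℓ ∣ N * p →
    ∀ A : ValuationSubring (AlgebraicClosure ℚ), A.LiesOverPrime ℓ →
      ∀ σ₀ : AlgebraicClosure ℚ ≃ₐ[ℚ] AlgebraicClosure ℚ, A.IsFrobeniusAt σ₀ ℓ →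
        ∃ (X : Type) (_ : AddCommGroup X) (red : JZero N →+ X),
          (∀ τ ∈ A.inertiaSubgroupIn ℚ, ∀ x : JZero N, red (τ • x) = red x) ∧
          (∀ x : JZero N,
            red (σ₀ • σ₀ • x - heckeGen ⟨ℓ, hℓ⟩ • (σ₀ • x) + ℓ • x) = 0) ∧
          (∀ x : JZero N, (∃ n : ℕ, p ^ n • x = 0) → red x = 0 → x = 0)

theorem s37_of_red (N p : ℕ) [NeZero N] :
    letI := ModularCurve.heckeModuleBar N
    ∀ (_ : SMulCommClass (AlgebraicClosure ℚ ≃ₐ[ℚ] AlgebraicClosure ℚ) ModularCurve.HeckeAlg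
        (ModularCurve.JZero N)),
      ES37RedHyp N p →
      ModularCurve.SpecializationExists (K := ℚ) (L := AlgebraicClosure ℚ) N p
        (ModularCurve.JZero N) := by
  letI := ModularCurve.heckeModuleBar N
  intro _ h
  refine specializationExists_of_red p (JZero N) N fun ℓ hℓ hℓN A hA => ?_
  obtain ⟨σ₀, hσ₀⟩ := Fermat.Agent.H53.exists_isFrobeniusAt_algebraicClosure hℓ A hA
  obtain ⟨X, _, red, hin, hes, hinj⟩ := h ℓ hℓ hℓN A hA σ₀ hσ₀
  exact ⟨σ₀, X, inferInstance, red, hσ₀, hin, hes, hinj⟩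

end Fermat.Agent.H37
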