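import Mathlib
import Fermat.Prelude.Def_FLTPrelim_ModularRep
import Fermat.Agent.H37.TorsionGlue
import Fermat.Agent.H38.FiveTorsion

/-!
# The 5-torsion side of S51 (subtask A5b): a Galois-stable line in `E[5]` gives two
`x`-coordinates `x₁ = x(P)`, `x₂ = x(2P)` related by the duplication formula, whose sum and
product are rational.
-/

set_option autoImplicit false

namespace Fermat.Agent.H37

open WeierstrassCurve WeierstrassCurve.Affine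
open scoped WeierstrassCurve.Affine
open Fermat.Agent.H38 (xc dblDen dblNum)

local notation "Qbar" => AlgebraicClosure ℚ

section Generic

variable {F : Type*} [Field F] [DecidableEq F]

/-- On a point killed by `5`, multiplication by `k` only depends on `k % 5`. -/
theorem nsmul_eq_mod_five_nsmul {A : Type*} [AddCommGroup A] {P : A} (h5 : 5 • P = 0) (k : ℕ) :
    k • P = (k % 5) • P := by
  conv_lhs => rw [← Nat.div_add_mod k 5]
  rw [add_nsmul, mul_nsmul, h5, nsmul_zero, zero_add]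

/-- The multiples of a `5`-torsion point `P` have `x`-coordinate `x(P)` or `x(2P)`, and
multiplication by `k` either fixes or swaps the pair `(x(P), x(2P))`. -/
theorem xc_nsmul_five_cases (W : WeierstrassCurve F) {P : W.toAffine.Point} (h5 : 5 • P = 0)
    (k : ℕ) (hk : k • P ≠ 0) :
    (xc W (k • P) = xc W P ∧ xc W (k • (2 • P)) = xc W (2 • P)) ∨
      (xc W (k • P) = xc W (2 • P) ∧ xc W (k • (2 • P)) = xc W P) := by
  have h52 : 5 • (2 • P) = 0 := by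
    rw [nsmul_left_comm, h5, nsmul_zero]
  have e1 := nsmul_eq_mod_five_nsmul h5 k
  have e2 := nsmul_eq_mod_five_nsmul h52 k
  have hlt : k % 5 < 5 := Nat.mod_lt _ (by norm_num)
  rw [e1] at hk
  rw [e1, e2]
  obtain ⟨r, hr⟩ : ∃ r : ℕ, r = k % 5 := ⟨_, rfl⟩
  rw [← hr] at hk hlt ⊢
  clear hr e1 e2
  have h4 : (2 • (2 • P) : W.toAffine.Point) = -P :=
    eq_neg_of_add_eq_zero_left (by rw [← h5]; abel)
  have h3 : (3 • P : W.toAffine.Point) = -(2 • P : W.toAffine.Point) :=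
    eq_neg_of_add_eq_zero_left (by rw [← h5]; abel)
  have h4' : (4 • P : W.toAffine.Point) = -P :=
    eq_neg_of_add_eq_zero_left (by rw [← h5]; abel)
  have h6 : (3 • (2 • P) : W.toAffine.Point) = P := by
    have : (3 • (2 • P) : W.toAffine.Point) = 5 • P + P := by abel
    rw [this, h5, zero_add]
  have h8 : (4 • (2 • P) : W.toAffine.Point) = -(2 • P : W.toAffine.Point) := by
    apply eq_neg_of_add_eq_zero_left
    have : (4 • (2 • P) + 2 • P : W.toAffine.Point) = 2 • (5 • P) := by abel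
    rw [this, h5, nsmul_zero]
  interval_cases r
  · exact absurd (zero_nsmul P) hk
  · left; rw [one_nsmul, one_nsmul]; exact ⟨rfl, rfl⟩
  · right; rw [h4, Fermat.Agent.H38.xc_neg]; exact ⟨rfl, rfl⟩
  · right; rw [h3, h6, Fermat.Agent.H38.xc_neg]; exact ⟨rfl, rfl⟩
  · left; rw [h4', h8, Fermat.Agent.H38.xc_neg, Fermat.Agent.H38.xc_neg]; exact ⟨rfl, rfl⟩

end Generic

section Five

variable (E : WeierstrassCurve ℚ)

/-- Galois acts on `x`-coordinates of points. -/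
theorem xc_smul (σ : Qbar ≃ₐ[ℚ] Qbar) (P : (E⁄Qbar).Point) :
    xc (E⁄Qbar) (σ • P) = σ (xc (E⁄Qbar) P) := by
  rcases P with _ | ⟨x, y, h⟩
  · have h0 : σ • (Point.zero : (E⁄Qbar).Point) = Point.zero :=
      smul_zero (A := (E⁄Qbar).Point) σ
    rw [h0]
    exact (map_zero σ).symm
  · obtain ⟨h', hσ⟩ := smul_some E σ h
    rw [hσ]
    rfl

/-- **A5b.** A Galois-stable proper nonzero submodule of `E[5]` (for `E[5]` of cardinality
`< 5 ^ 3`) yields `x₁ = x(P)`, `x₂ = x(2P)` with the duplication relations and rational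
elementary symmetric functions. -/
theorem five_torsion_stable_data
    (hfin : Finite (Submodule.torsionBy ℤ (E⁄Qbar).Point ((5 : ℕ) : ℤ)))
    (hcard : Nat.card (Submodule.torsionBy ℤ (E⁄Qbar).Point ((5 : ℕ) : ℤ)) < 5 ^ 3)
    (N : Submodule (ZMod 5) (Submodule.torsionBy ℤ (E⁄Qbar).Point ((5 : ℕ) : ℤ)))
    (hN : Point.IsGaloisStable ℚ N) (hbot : N ≠ ⊥) (htop : N ≠ ⊤) :
    ∃ x₁ x₂ : Qbar, x₁ ≠ x₂ ∧ dblDen (E⁄Qbar) x₁ ≠ 0 ∧ dblDen (E⁄Qbar) x₂ ≠ 0 ∧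
      x₂ * dblDen (E⁄Qbar) x₁ = dblNum (E⁄Qbar) x₁ ∧
      x₁ * dblDen (E⁄Qbar) x₂ = dblNum (E⁄Qbar) x₂ ∧
      ∃ s p : ℚ, algebraMap ℚ Qbar s = x₁ + x₂ ∧ algebraMap ℚ Qbar p = x₁ * x₂ := by
  have : Fact (Nat.Prime 5) := ⟨by norm_num⟩
  obtain ⟨⟨P, hP5⟩, hP0, hPN, hgen⟩ := A_line 5 _ hfin hcard N hbot htop
  have hP0' : P ≠ 0 := fun h => hP0 (Subtype.ext h)
  have h5 : 5 • P = 0 := by
    have := (Submodule.mem_torsionBy_iff _ _).mp hP5
    rwa [Nat.cast_smul_eq_nsmul] at this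
  obtain ⟨h2, hne, hf1, hf2, hx2, hx4⟩ := Fermat.Agent.H38.five_torsion_data (E⁄Qbar) hP0' h5
  refine ⟨xc (E⁄Qbar) P, xc (E⁄Qbar) (2 • P), hne, hf1, hf2, hx2, hx4, ?_⟩
  have hσ : ∀ σ : Qbar ≃ₐ[ℚ] Qbar,
      (σ (xc (E⁄Qbar) P) = xc (E⁄Qbar) P ∧ σ (xc (E⁄Qbar) (2 • P)) = xc (E⁄Qbar) (2 • P)) ∨
      (σ (xc (E⁄Qbar) P) = xc (E⁄Qbar) (2 • P) ∧ σ (xc (E⁄Qbar) (2 • P)) = xc (E⁄Qbar) P) := by
    intro σ
    obtain ⟨k, hk⟩ := hgen _ (hN σ _ hPN)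
    have hk' : σ • P = k • P := by
      have h1 := congrArg Subtype.val hk
      simp only [Nat.cast_ofNat, AddSubmonoidClass.mk_nsmul] at h1
      exact h1
    have hk0 : k • P ≠ 0 := by
      rw [← hk']
      exact fun h => hP0' ((smul_eq_zero_iff_eq σ).mp h)
    have hk2 : σ • (2 • P) = k • (2 • P) := by
      have e : σ • (2 • P) = 2 • (σ • P) := by
        rw [two_nsmul, two_nsmul]
        exact smul_add σ P P
      rw [e, hk', nsmul_left_comm]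
    have := xc_nsmul_five_cases (E⁄Qbar) h5 k hk0
    rw [← hk', ← hk2, xc_smul, xc_smul] at this
    exact this
  have hs : ∀ σ : Qbar ≃ₐ[ℚ] Qbar,
      σ (xc (E⁄Qbar) P + xc (E⁄Qbar) (2 • P)) = xc (E⁄Qbar) P + xc (E⁄Qbar) (2 • P) := by
    intro σ
    rcases hσ σ with ⟨h1, h2⟩ | ⟨h1, h2⟩
    · rw [map_add, h1, h2]
    · rw [map_add, h1, h2, add_comm]
  have hp : ∀ σ : Qbar ≃ₐ[ℚ] Qbar,
      σ (xc (E⁄Qbar) P * xc (E⁄Qbar) (2 • P)) = xc (E⁄Qbar) P * xc (E⁄Qbar) (2 • P) := by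
    intro σ
    rcases hσ σ with ⟨h1, h2⟩ | ⟨h1, h2⟩
    · rw [map_mul, h1, h2]
    · rw [map_mul, h1, h2, mul_comm]
  obtain ⟨s, hs'⟩ := A_gal_fixed _ hs
  obtain ⟨p, hp'⟩ := A_gal_fixed _ hp
  exact ⟨s, p, hs', hp'⟩

/-- A5b in terms of reducibility. -/
theorem five_torsion_data_of_reducible
    (hnt : Nontrivial (Submodule.torsionBy ℤ (E⁄Qbar).Point ((5 : ℕ) : ℤ)))
    (hfin : Finite (Submodule.torsionBy ℤ (E⁄Qbar).Point ((5 : ℕ) : ℤ)))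
    (hcard : Nat.card (Submodule.torsionBy ℤ (E⁄Qbar).Point ((5 : ℕ) : ℤ)) < 5 ^ 3)
    (hred : ¬ Point.GaloisRepIsIrreducible (K := Qbar) ℚ E 5) :
    ∃ x₁ x₂ : Qbar, x₁ ≠ x₂ ∧ dblDen (E⁄Qbar) x₁ ≠ 0 ∧ dblDen (E⁄Qbar) x₂ ≠ 0 ∧
      x₂ * dblDen (E⁄Qbar) x₁ = dblNum (E⁄Qbar) x₁ ∧
      x₁ * dblDen (E⁄Qbar) x₂ = dblNum (E⁄Qbar) x₂ ∧
      ∃ s p : ℚ, algebraMap ℚ Qbar s = x₁ + x₂ ∧ algebraMap ℚ Qbar p = x₁ * x₂ := by
  unfold Point.GaloisRepIsIrreducible at hred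
  rw [not_and] at hred
  have hred' := hred hnt
  push Not at hred'
  obtain ⟨N, hstable, hbot, htop⟩ := hred'
  exact five_torsion_stable_data E hfin hcard N hstable hbot htop

end Five

/-- **A5 for S51, modulo the size of `E[5]`**: the conclusion of `Fermat.Agent.H50.A5Prop` for an
integral Weierstrass curve whose mod-5 representation is not irreducible, given that `E[5]` is
nontrivial, finite and of cardinality `< 5 ^ 3`. -/
theorem a5_of_torsion_data (W : WeierstrassCurve ℤ)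
    (hnt : Nontrivial (Submodule.torsionBy ℤ
      ((W.map (Int.castRingHom ℚ))⁄Qbar).Point ((5 : ℕ) : ℤ)))
    (hfin : Finite (Submodule.torsionBy ℤ
      ((W.map (Int.castRingHom ℚ))⁄Qbar).Point ((5 : ℕ) : ℤ)))
    (hcard : Nat.card (Submodule.torsionBy ℤ
      ((W.map (Int.castRingHom ℚ))⁄Qbar).Point ((5 : ℕ) : ℤ)) < 5 ^ 3)
    (hred : ¬ W.ModRepIsIrreducible 5) :
    ∃ x₁ x₂ : AlgebraicClosure ℚ, x₁ ≠ x₂ ∧
      4 * x₁ ^ 3 + (W.b₂ : AlgebraicClosure ℚ) * x₁ ^ 2 + 2 * (W.b₄ : AlgebraicClosure ℚ) * x₁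
        + (W.b₆ : AlgebraicClosure ℚ) ≠ 0 ∧
      4 * x₂ ^ 3 + (W.b₂ : AlgebraicClosure ℚ) * x₂ ^ 2 + 2 * (W.b₄ : AlgebraicClosure ℚ) * x₂
        + (W.b₆ : AlgebraicClosure ℚ) ≠ 0 ∧
      x₂ * (4 * x₁ ^ 3 + (W.b₂ : AlgebraicClosure ℚ) * x₁ ^ 2
          + 2 * (W.b₄ : AlgebraicClosure ℚ) * x₁ + (W.b₆ : AlgebraicClosure ℚ))
        = x₁ ^ 4 - (W.b₄ : AlgebraicClosure ℚ) * x₁ ^ 2 - 2 * (W.b₆ : AlgebraicClosure ℚ) * x₁
          - (W.b₈ : AlgebraicClosure ℚ) ∧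
      x₁ * (4 * x₂ ^ 3 + (W.b₂ : AlgebraicClosure ℚ) * x₂ ^ 2
          + 2 * (W.b₄ : AlgebraicClosure ℚ) * x₂ + (W.b₆ : AlgebraicClosure ℚ))
        = x₂ ^ 4 - (W.b₄ : AlgebraicClosure ℚ) * x₂ ^ 2 - 2 * (W.b₆ : AlgebraicClosure ℚ) * x₂
          - (W.b₈ : AlgebraicClosure ℚ) ∧
      ∃ s p : ℚ, algebraMap ℚ (AlgebraicClosure ℚ) s = x₁ + x₂ ∧
        algebraMap ℚ (AlgebraicClosure ℚ) p = x₁ * x₂ := by
  obtain ⟨x₁, x₂, hne, hf1, hf2, hx2, hx4, hsp⟩ :=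
    five_torsion_data_of_reducible (W.map (Int.castRingHom ℚ)) hnt hfin hcard hred
  have hb₂ : ((W.map (Int.castRingHom ℚ))⁄Qbar).b₂ = (W.b₂ : Qbar) := by
    simp only [Affine.baseChange, WeierstrassCurve.baseChange, map_b₂, eq_intCast, map_intCast]
  have hb₄ : ((W.map (Int.castRingHom ℚ))⁄Qbar).b₄ = (W.b₄ : Qbar) := by
    simp only [Affine.baseChange, WeierstrassCurve.baseChange, map_b₄, eq_intCast, map_intCast]
  have hb₆ : ((W.map (Int.castRingHom ℚ))⁄Qbar).b₆ = (W.b₆ : Qbar) := by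
    simp only [Affine.baseChange, WeierstrassCurve.baseChange, map_b₆, eq_intCast, map_intCast]
  have hb₈ : ((W.map (Int.castRingHom ℚ))⁄Qbar).b₈ = (W.b₈ : Qbar) := by
    simp only [Affine.baseChange, WeierstrassCurve.baseChange, map_b₈, eq_intCast, map_intCast]
  simp only [dblDen, dblNum, hb₂, hb₄, hb₆, hb₈] at hf1 hf2 hx2 hx4
  exact ⟨x₁, x₂, hne, hf1, hf2, hx2, hx4, hsp⟩

end Fermat.Agent.H37
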