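import Fermat.Prelude.Def_Algebra_PatchingDatum
import Mathlib

/-!
# S57 glue, part (c): from freeness of the patched module over the power series ring
to the three conclusions of the descent step.
-/

set_option autoImplicit false

namespace Fermat.Agent.H37

open MvPowerSeries

/-- Coordinates of an element of `I • ⊤` in a basis lie in `I`. -/
theorem repr_mem_of_mem_smul_top {A N ι : Type*} [CommRing A] [AddCommGroup N] [Module A N]
    (e : Module.Basis ι A N) (I : Ideal A) {x : N}
    (hx : x ∈ I • (⊤ : Submodule A N)) (j : ι) : e.repr x j ∈ I := by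
  refine Submodule.smul_induction_on hx ?_ ?_
  · intro a ha n _
    rw [map_smul, Finsupp.smul_apply, smul_eq_mul]
    exact I.mul_mem_right _ ha
  · intro x y hx hy
    rw [map_add, Finsupp.add_apply]
    exact I.add_mem hx hy

variable {𝒪 : Type} [CommRing 𝒪]
  {r : ℕ} {R : Type} [CommRing R] [Algebra 𝒪 R]
  {M : Type} [AddCommGroup M] [Module R M]
  {J : Ideal (MvPowerSeries (Fin r) 𝒪)}

/-- The ideal generated by the images of the variables is contained in `ker ψ`. -/
theorem span_le_ker (L : Algebra.PatchingLevel 𝒪 r R M J) :
    Ideal.span (Set.range fun i : Fin r => L.φ (MvPowerSeries.X i)) ≤ RingHom.ker L.ψ := by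
  rw [Ideal.span_le]
  rintro _ ⟨i, rfl⟩
  exact L.ψ_φ_X i

/-- Final deduction of the descent step: if the patched module `L.N` is free over the power
series ring, then `M` is free and faithful over `R` and `ker ψ` is generated by the `φ (X i)`. -/
theorem descent_of_free [Nontrivial M] (L : Algebra.PatchingLevel 𝒪 r R M J)
    (hfree : Module.Free (MvPowerSeries (Fin r) 𝒪) L.N) :
    Module.Free R M ∧ Module.annihilator R M = ⊥ ∧
      RingHom.ker L.ψ = Ideal.span (Set.range fun i : Fin r => L.φ (MvPowerSeries.X i)) := by
  classical
  set I : Ideal (MvPowerSeries (Fin r) 𝒪) :=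
    Ideal.span (Set.range fun i : Fin r => L.φ (MvPowerSeries.X i)) with hI
  obtain ⟨⟨ι, e⟩⟩ := hfree
  -- the index type is nonempty
  have hne : Nonempty ι := by
    by_contra hemp
    rw [not_nonempty_iff] at hemp
    obtain ⟨m, hm⟩ := exists_ne (0 : M)
    obtain ⟨x, rfl⟩ := L.π_surjective m
    have : x = 0 := by
      have := e.repr.injective (a₁ := x) (a₂ := 0) (Subsingleton.elim _ _)
      exact this
    exact hm (by rw [this, map_zero])
  -- key: a linear combination of basis vectors killed by `π` has coefficients in `I`
  have key : ∀ l : ι →₀ MvPowerSeries (Fin r) 𝒪,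
      L.π (Finsupp.linearCombination _ e l) = 0 → ∀ j, l j ∈ I := by
    intro l hl j
    have h1 := (L.ker_π _).mp hl
    have h2 := repr_mem_of_mem_smul_top e I h1 j
    rwa [Module.Basis.repr_linearCombination] at h2
  have hker : RingHom.ker L.ψ = I := by
    apply le_antisymm _ (span_le_ker L)
    intro f hf
    obtain ⟨j⟩ := hne
    have h0 : L.π (Finsupp.linearCombination _ e (Finsupp.single j f)) = 0 := by
      rw [Finsupp.linearCombination_single, L.π_smul, (RingHom.mem_ker).mp hf, zero_smul]
    simpa using key _ h0 j
  -- π of a linear combination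
  have hπlc : ∀ l : ι →₀ MvPowerSeries (Fin r) 𝒪,
      L.π (Finsupp.linearCombination _ e l) =
        Finsupp.linearCombination R (fun j => L.π (e j)) (Finsupp.mapRange L.ψ (map_zero _) l) := by
    intro l
    induction l using Finsupp.induction_linear with
    | zero => simp
    | add f g hf hg =>
      rw [map_add, map_add, hf, hg, Finsupp.mapRange_add (by intro a b; exact map_add _ a b),
        map_add]
    | single j a =>
      rw [Finsupp.linearCombination_single, L.π_smul, Finsupp.mapRange_single,
        Finsupp.linearCombination_single]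
  -- a set-theoretic section of ψ
  have hsec : ∀ a : R, ∃ f : MvPowerSeries (Fin r) 𝒪, L.ψ f = a := fun a => L.ψ_surjective a
  choose s hs using hsec
  let s' : R → MvPowerSeries (Fin r) 𝒪 := fun a => if a = 0 then 0 else s a
  have hs'0 : s' 0 = 0 := by simp [s']
  have hs' : ∀ a, L.ψ (s' a) = a := by
    intro a
    by_cases ha : a = 0
    · simp [s', ha]
    · simp [s', ha, hs]
  have hlift : ∀ l : ι →₀ R, Finsupp.mapRange L.ψ (map_zero _) (Finsupp.mapRange s' hs'0 l) = l := by
    intro l
    ext j
    simp [hs']
  have hli : LinearIndependent R (fun j => L.π (e j)) := by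
    rw [linearIndependent_iff]
    intro l hl
    have h1 : L.π (Finsupp.linearCombination _ e (Finsupp.mapRange s' hs'0 l)) = 0 := by
      rw [hπlc, hlift, hl]
    have h2 := key _ h1
    ext j
    have h3 : Finsupp.mapRange s' hs'0 l j ∈ RingHom.ker L.ψ := hker ▸ h2 j
    have h4 := (RingHom.mem_ker).mp h3
    rw [Finsupp.mapRange_apply, hs'] at h4
    simpa using h4
  have hspan : ⊤ ≤ Submodule.span R (Set.range fun j => L.π (e j)) := by
    intro m _
    obtain ⟨x, rfl⟩ := L.π_surjective m
    have hx : x = Finsupp.linearCombination _ e (e.repr x) := (e.linearCombination_repr x).symm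
    rw [hx, hπlc]
    exact Finsupp.mem_span_range_iff_exists_finsupp.mpr ⟨_, (Finsupp.linearCombination_apply R _).symm⟩
  let bM : Module.Basis ι R M := Module.Basis.mk hli hspan
  have hfreeM : Module.Free R M := Module.Free.of_basis bM
  refine ⟨hfreeM, ?_, hker⟩
  rw [Module.annihilator_eq_bot]
  infer_instance

end Fermat.Agent.H37

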